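import Mathlib.AlgebraicGeometry.EllipticCurve.Weierstrass
import Mathlib.Algebra.Polynomial.Degree.Lemmas
import Mathlib.Algebra.Polynomial.Eval.Degree
import Mathlib.Tactic

/-!
# S13, package L1: ladder polynomials

For a Weierstrass curve `W` over a commutative ring we define, by the `x`-only Montgomery ladder,
a pair of polynomials `lad W n = (X_n, Z_n)` such that (package L2) `x(nQ) = X_n(x(Q)) / Z_n(x(Q))`.
Here we prove: `X_n` is monic of degree `n ^ 2`, `Z_n` has degree at most `n ^ 2 - 1` with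
coefficient `n ^ 2` at `n ^ 2 - 1`, and for odd `n = 2 k + 1` we have `Z_n = D_k ^ 2` with `D_k` of
degree at most `2 k ^ 2 + 2 k` and coefficient `-(2 k + 1)` there.  Everything commutes with ring
homomorphisms.
-/

set_option autoImplicit false

namespace Fermat.Agent.S13.H15

open Polynomial

universe u v

variable {R : Type u} [CommRing R]

/-! ### The degree / leading coefficient calculus -/

/-- `f` has degree at most `d` and coefficient `c` in degree `d`. -/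
def DegLC (f : R[X]) (d : ℕ) (c : R) : Prop := f.natDegree ≤ d ∧ f.coeff d = c

namespace DegLC

variable {f g : R[X]} {d e : ℕ} {c c' : R}

lemma mul (hf : DegLC f d c) (hg : DegLC g e c') : DegLC (f * g) (d + e) (c * c') :=
  ⟨natDegree_mul_le_of_le hf.1 hg.1, by
    rw [coeff_mul_add_eq_of_natDegree_le hf.1 hg.1, hf.2, hg.2]⟩

lemma pow (hf : DegLC f d c) (n : ℕ) : DegLC (f ^ n) (n * d) (c ^ n) :=
  ⟨natDegree_pow_le_of_le n hf.1, by
    rw [coeff_pow_of_natDegree_le hf.1, hf.2]⟩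

lemma add (hf : DegLC f d c) (hg : DegLC g d c') : DegLC (f + g) d (c + c') :=
  ⟨natDegree_add_le_of_degree_le hf.1 hg.1, by rw [coeff_add, hf.2, hg.2]⟩

lemma sub (hf : DegLC f d c) (hg : DegLC g d c') : DegLC (f - g) d (c - c') :=
  ⟨(natDegree_sub_le_of_le hf.1 hg.1).trans (max_self d).le, by rw [coeff_sub, hf.2, hg.2]⟩

lemma mono (hf : DegLC f d c) (h : d < e) : DegLC f e 0 :=
  ⟨hf.1.trans h.le, coeff_eq_zero_of_natDegree_lt (lt_of_le_of_lt hf.1 h)⟩

lemma C_mul (a : R) (hf : DegLC f d c) : DegLC (C a * f) d (a * c) :=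
  ⟨(natDegree_C_mul_le a f).trans hf.1, by rw [coeff_C_mul, hf.2]⟩

lemma congr (hf : DegLC f d c) (hd : d = e) (hc : c = c') : DegLC f e c' := by
  subst hd hc; exact hf

protected lemma X : DegLC (X : R[X]) 1 1 := ⟨natDegree_X_le, coeff_X_one⟩

protected lemma one : DegLC (1 : R[X]) 0 1 := ⟨natDegree_one.le, coeff_one_zero⟩

protected lemma zero (d : ℕ) : DegLC (0 : R[X]) d 0 := ⟨by simp, coeff_zero d⟩

end DegLC

/-! ### The ladder -/

/-- Doubling step on projective `x`-coordinates `(U : V)`. -/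
noncomputable def dblStep (W : WeierstrassCurve R) (s : R[X] × R[X]) : R[X] × R[X] :=
  (s.1 ^ 4 - C W.b₄ * (s.1 ^ 2 * s.2 ^ 2) - C (2 * W.b₆) * (s.1 * s.2 ^ 3) - C W.b₈ * s.2 ^ 4,
   s.2 * (C 4 * s.1 ^ 3 + C W.b₂ * (s.1 ^ 2 * s.2) + C (2 * W.b₄) * (s.1 * s.2 ^ 2)
      + C W.b₆ * s.2 ^ 3))

/-- The polynomial `D = U' V - U V'` attached to two projective `x`-coordinates. -/
noncomputable def addD (s t : R[X] × R[X]) : R[X] := t.1 * s.2 - s.1 * t.2

/-- Differential addition step: from `s = x(nQ)` and `t = x((n+1)Q)` to `x((2n+1)Q)`. -/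
noncomputable def addStep (W : WeierstrassCurve R) (s t : R[X] × R[X]) : R[X] × R[X] :=
  (C 2 * ((t.1 * s.1) * (t.1 * s.2 + s.1 * t.2)) + C W.b₂ * ((t.1 * s.1) * (t.2 * s.2))
      + C W.b₄ * ((t.1 * s.2 + s.1 * t.2) * (t.2 * s.2)) + C W.b₆ * (t.2 * s.2) ^ 2
      - X * addD s t ^ 2,
   addD s t ^ 2)

/-- The ladder polynomials `(X_n, Z_n)`. -/
noncomputable def lad (W : WeierstrassCurve R) : ℕ → R[X] × R[X]
  | 0 => (1, 0)
  | 1 => (X, 1)
  | (n + 2) =>
    if _h : (n + 2) % 2 = 0 then dblStep W (lad W ((n + 2) / 2))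
    else addStep W (lad W ((n + 2) / 2)) (lad W ((n + 2) / 2 + 1))
  decreasing_by all_goals omega

@[simp] lemma lad_zero (W : WeierstrassCurve R) : lad W 0 = (1, 0) := by
  rw [lad]

@[simp] lemma lad_one (W : WeierstrassCurve R) : lad W 1 = (X, 1) := by
  rw [lad]

theorem lad_two_mul (W : WeierstrassCurve R) (k : ℕ) :
    lad W (2 * k) = dblStep W (lad W k) := by
  rcases k with _ | m
  · simp [dblStep]
  · have h1 : 2 * (m + 1) = 2 * m + 2 := by ring
    rw [h1, lad, dif_pos (by omega)]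
    have h2 : (2 * m + 2) / 2 = m + 1 := by omega
    rw [h2]

theorem lad_two_mul_add_one (W : WeierstrassCurve R) (k : ℕ) :
    lad W (2 * k + 1) = addStep W (lad W k) (lad W (k + 1)) := by
  rcases k with _ | m
  · simp only [mul_zero, zero_add, lad_one, lad_zero, addStep, addD]
    ext
    · simp; ring
    · simp
  · have h1 : 2 * (m + 1) + 1 = (2 * m + 1) + 2 := by ring
    rw [h1, lad, dif_neg (by omega)]
    have h2 : (2 * m + 1 + 2) / 2 = m + 1 := by omega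
    rw [h2]

/-- The polynomial `D_k` with `Z_{2k+1} = D_k ^ 2`. -/
noncomputable def ladD (W : WeierstrassCurve R) (k : ℕ) : R[X] := addD (lad W k) (lad W (k + 1))

theorem lad_odd_snd (W : WeierstrassCurve R) (k : ℕ) :
    (lad W (2 * k + 1)).2 = ladD W k ^ 2 := by
  rw [lad_two_mul_add_one]; rfl

/-! ### Degrees and leading coefficients -/

section Degrees

variable (W : WeierstrassCurve R)

lemma addD_deg {s t : R[X] × R[X]} {k : ℕ} (hk : 1 ≤ k)
    (hU : DegLC s.1 (k ^ 2) 1) (hV : DegLC s.2 (k ^ 2 - 1) ((k : R) ^ 2))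
    (hU' : DegLC t.1 ((k + 1) ^ 2) 1)
    (hV' : DegLC t.2 ((k + 1) ^ 2 - 1) (((k + 1 : ℕ) : R) ^ 2)) :
    DegLC (addD s t) (2 * k ^ 2 + 2 * k) (-((2 * k + 1 : ℕ) : R)) := by
  have hm : 1 ≤ k ^ 2 := Nat.one_le_pow _ _ hk
  have e2 : (k + 1) ^ 2 = k ^ 2 + 2 * k + 1 := by ring
  have d1 : DegLC (t.1 * s.2) (2 * k ^ 2 + 2 * k) (1 * (k : R) ^ 2) :=
    (hU'.mul hV).congr (by omega) rfl
  have d2 : DegLC (s.1 * t.2) (2 * k ^ 2 + 2 * k) (1 * ((k + 1 : ℕ) : R) ^ 2) :=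
    (hU.mul hV').congr (by omega) rfl
  exact (d1.sub d2).congr rfl (by push_cast; ring)

lemma dblStep_deg {s : R[X] × R[X]} {k : ℕ} (hk : 1 ≤ k)
    (hU : DegLC s.1 (k ^ 2) 1) (hV : DegLC s.2 (k ^ 2 - 1) ((k : R) ^ 2)) :
    DegLC (dblStep W s).1 ((2 * k) ^ 2) 1 ∧
      DegLC (dblStep W s).2 ((2 * k) ^ 2 - 1) (((2 * k : ℕ) : R) ^ 2) := by
  have hm : 1 ≤ k ^ 2 := Nat.one_le_pow _ _ hk
  have e1 : (2 * k) ^ 2 = 4 * k ^ 2 := by ring
  constructor
  · have t1 : DegLC (s.1 ^ 4) (4 * k ^ 2) (1 ^ 4) := hU.pow 4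
    have t2 : DegLC (C W.b₄ * (s.1 ^ 2 * s.2 ^ 2)) (4 * k ^ 2) 0 :=
      (((hU.pow 2).mul (hV.pow 2)).C_mul _).mono (by omega)
    have t3 : DegLC (C (2 * W.b₆) * (s.1 * s.2 ^ 3)) (4 * k ^ 2) 0 :=
      ((hU.mul (hV.pow 3)).C_mul _).mono (by omega)
    have t4 : DegLC (C W.b₈ * s.2 ^ 4) (4 * k ^ 2) 0 :=
      ((hV.pow 4).C_mul _).mono (by omega)
    exact (((t1.sub t2).sub t3).sub t4).congr e1.symm (by ring)
  · have s1 : DegLC (C 4 * s.1 ^ 3) (3 * k ^ 2) (4 * 1 ^ 3) := (hU.pow 3).C_mul _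
    have s2 : DegLC (C W.b₂ * (s.1 ^ 2 * s.2)) (3 * k ^ 2) 0 :=
      (((hU.pow 2).mul hV).C_mul _).mono (by omega)
    have s3 : DegLC (C (2 * W.b₄) * (s.1 * s.2 ^ 2)) (3 * k ^ 2) 0 :=
      ((hU.mul (hV.pow 2)).C_mul _).mono (by omega)
    have s4 : DegLC (C W.b₆ * s.2 ^ 3) (3 * k ^ 2) 0 :=
      ((hV.pow 3).C_mul _).mono (by omega)
    exact (hV.mul (((s1.add s2).add s3).add s4)).congr (by omega) (by push_cast; ring)

lemma addStep_deg {s t : R[X] × R[X]} {k : ℕ} (hk : 1 ≤ k)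
    (hU : DegLC s.1 (k ^ 2) 1) (hV : DegLC s.2 (k ^ 2 - 1) ((k : R) ^ 2))
    (hU' : DegLC t.1 ((k + 1) ^ 2) 1)
    (hV' : DegLC t.2 ((k + 1) ^ 2 - 1) (((k + 1 : ℕ) : R) ^ 2)) :
    DegLC (addStep W s t).1 ((2 * k + 1) ^ 2) 1 ∧
      DegLC (addStep W s t).2 ((2 * k + 1) ^ 2 - 1) (((2 * k + 1 : ℕ) : R) ^ 2) := by
  have hm : 1 ≤ k ^ 2 := Nat.one_le_pow _ _ hk
  have e2 : (k + 1) ^ 2 = k ^ 2 + 2 * k + 1 := by ring
  have e3 : (2 * k + 1) ^ 2 = 4 * k ^ 2 + 4 * k + 1 := by ring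
  have hD := addD_deg hk hU hV hU' hV'
  have d1 : DegLC (t.1 * s.2) (2 * k ^ 2 + 2 * k) (1 * (k : R) ^ 2) :=
    (hU'.mul hV).congr (by omega) rfl
  have d2 : DegLC (s.1 * t.2) (2 * k ^ 2 + 2 * k) (1 * ((k + 1 : ℕ) : R) ^ 2) :=
    (hU.mul hV').congr (by omega) rfl
  constructor
  · have a1 : DegLC (C 2 * ((t.1 * s.1) * (t.1 * s.2 + s.1 * t.2))) (4 * k ^ 2 + 4 * k + 1)
        (2 * ((1 * 1) * (1 * (k : R) ^ 2 + 1 * ((k + 1 : ℕ) : R) ^ 2))) :=
      ((((hU'.mul hU).mul (d1.add d2)).C_mul 2).congr (by omega) rfl)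
    have a2 : DegLC (C W.b₂ * ((t.1 * s.1) * (t.2 * s.2))) (4 * k ^ 2 + 4 * k + 1) 0 :=
      ((((hU'.mul hU).mul (hV'.mul hV)).C_mul _).mono (by omega))
    have a3 : DegLC (C W.b₄ * ((t.1 * s.2 + s.1 * t.2) * (t.2 * s.2))) (4 * k ^ 2 + 4 * k + 1) 0 :=
      ((((d1.add d2).mul (hV'.mul hV)).C_mul _).mono (by omega))
    have a4 : DegLC (C W.b₆ * (t.2 * s.2) ^ 2) (4 * k ^ 2 + 4 * k + 1) 0 :=
      ((((hV'.mul hV).pow 2).C_mul _).mono (by omega))
    have a5 : DegLC (X * addD s t ^ 2) (4 * k ^ 2 + 4 * k + 1)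
        (1 * (-((2 * k + 1 : ℕ) : R)) ^ 2) :=
      (DegLC.X.mul (hD.pow 2)).congr (by omega) rfl
    exact ((((a1.add a2).add a3).add a4).sub a5).congr e3.symm (by push_cast; ring)
  · exact (hD.pow 2).congr (by omega) (by push_cast; ring)

/-- **Degrees of the ladder polynomials**: `X_n` is monic of degree `n ^ 2`; `Z_n` has degree at
most `n ^ 2 - 1`, with coefficient `n ^ 2` in that degree. -/
theorem lad_deg (n : ℕ) :
    DegLC (lad W n).1 (n ^ 2) 1 ∧ DegLC (lad W n).2 (n ^ 2 - 1) ((n : R) ^ 2) := by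
  induction n using Nat.strong_induction_on with
  | _ n ih =>
    rcases Nat.even_or_odd' n with ⟨k, rfl | rfl⟩
    · rcases Nat.eq_zero_or_pos k with rfl | hk
      · simp [DegLC]
      · obtain ⟨hU, hV⟩ := ih k (by omega)
        rw [lad_two_mul]
        exact dblStep_deg W hk hU hV
    · rcases Nat.eq_zero_or_pos k with rfl | hk
      · simp only [mul_zero, zero_add, lad_one]
        exact ⟨DegLC.X.congr (by norm_num) rfl, DegLC.one.congr (by norm_num) (by simp)⟩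
      · obtain ⟨hU, hV⟩ := ih k (by omega)
        obtain ⟨hU', hV'⟩ := ih (k + 1) (by omega)
        rw [lad_two_mul_add_one]
        exact addStep_deg W hk hU hV hU' hV'

/-- `X_n` is monic of degree `n ^ 2`. -/
theorem lad_fst_monic (n : ℕ) : (lad W n).1.natDegree ≤ n ^ 2 ∧ (lad W n).1.coeff (n ^ 2) = 1 :=
  (lad_deg W n).1

/-- The polynomial `D_k` (with `Z_{2k+1} = D_k ^ 2`) has degree at most `2 k ^ 2 + 2 k` and
coefficient `-(2 k + 1)` in that degree. -/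
theorem ladD_deg (k : ℕ) :
    DegLC (ladD W k) (2 * k ^ 2 + 2 * k) (-((2 * k + 1 : ℕ) : R)) := by
  rcases Nat.eq_zero_or_pos k with rfl | hk
  · simp [DegLC, ladD, addD]
  · exact addD_deg hk (lad_deg W k).1 (lad_deg W k).2 (lad_deg W (k + 1)).1 (lad_deg W (k + 1)).2

end Degrees

/-! ### Base change -/

theorem lad_map {S : Type v} [CommRing S] (f : R →+* S) (W : WeierstrassCurve R) (n : ℕ) :
    lad (W.map f) n = ((lad W n).1.map f, (lad W n).2.map f) := by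
  induction n using Nat.strong_induction_on with
  | _ n ih =>
    rcases Nat.even_or_odd' n with ⟨k, rfl | rfl⟩
    · rcases Nat.eq_zero_or_pos k with rfl | hk
      · simp
      · rw [lad_two_mul, lad_two_mul, ih k (by omega)]
        simp [dblStep, Polynomial.map_sub, Polynomial.map_add, Polynomial.map_mul,
          Polynomial.map_pow, map_ofNat]
    · rcases Nat.eq_zero_or_pos k with rfl | hk
      · simp
      · rw [lad_two_mul_add_one, lad_two_mul_add_one, ih k (by omega), ih (k + 1) (by omega)]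
        simp [addStep, addD, Polynomial.map_sub, Polynomial.map_add, Polynomial.map_mul,
          Polynomial.map_pow, map_ofNat]

theorem ladD_map {S : Type v} [CommRing S] (f : R →+* S) (W : WeierstrassCurve R) (k : ℕ) :
    ladD (W.map f) k = (ladD W k).map f := by
  simp [ladD, addD, lad_map, Polynomial.map_sub, Polynomial.map_mul]

end Fermat.Agent.S13.H15
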