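import Mathlib.RingTheory.Valuation.ValuationSubring
import Mathlib.FieldTheory.Galois.Infinite
import Mathlib.FieldTheory.IsAlgClosed.AlgebraicClosure
import Mathlib.RingTheory.PrincipalIdealDomain
import Mathlib.RingTheory.Int.Basic
import Mathlib.Data.Rat.Lemmas
import Mathlib.Algebra.BigOperators.Group.Finset.Basic

/-!
# Step (III): not all `p`-torsion lies in the kernel of reduction

Abstract form: let `A` be a valuation subring of a Galois extension of `ℚ`, `T ⊊ S` finite sets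
of elements outside `A` with `T` nonempty and Galois-stable.  Then `p` is not of the form `ε * ∏ ξ ∈ S, ξ⁻¹` with
`ε ∈ A`.
-/

set_option autoImplicit false

namespace Fermat.Agent.S13.H15

section ratVal

variable {L : Type*} [Field L] [CharZero L] {Γ₀ : Type*} [LinearOrderedCommGroupWithZero Γ₀]

/-- An integer prime to `p` is a unit for a valuation that is `≤ 1` on `ℤ` and `< 1` at `p`. -/
theorem val_intCast_eq_one (v : Valuation L Γ₀) (hint : ∀ n : ℤ, v (n : L) ≤ 1) {p : ℕ}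
    (hp : p.Prime) (hpv : v (p : L) < 1) {a : ℤ} (ha : ¬ (p : ℤ) ∣ a) : v (a : L) = 1 := by
  refine le_antisymm (hint a) ?_
  by_contra hlt
  rw [not_le] at hlt
  obtain ⟨s, t, hst⟩ := (Prime.coprime_iff_not_dvd (Nat.prime_iff_prime_int.mp hp)).mpr ha
  have h1 : ((s : L) * ((p : ℕ) : L) + (t : L) * (a : L)) = 1 := by
    exact_mod_cast congrArg (Int.cast : ℤ → L) hst
  have h2 : v ((s : L) * ((p : ℕ) : L) + (t : L) * (a : L)) < 1 := by
    refine v.map_add_lt ?_ ?_
    · rw [map_mul]; exact lt_of_le_of_lt (mul_le_of_le_one_left' (hint s)) hpv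
    · rw [map_mul]; exact lt_of_le_of_lt (mul_le_of_le_one_left' (hint t)) hlt
  rw [h1, map_one] at h2
  exact lt_irrefl _ h2

/-- A rational number of valuation `< 1` is `p` times a rational number of valuation `≤ 1`, for
a valuation that is `≤ 1` on `ℤ` and `< 1` at the prime `p`. -/
theorem exists_eq_prime_mul (v : Valuation L Γ₀) (hint : ∀ n : ℤ, v (n : L) ≤ 1) {p : ℕ}
    (hp : p.Prime) (hpv : v (p : L) < 1) (r : ℚ) (hr : v (r : L) < 1) :
    ∃ u : L, v u ≤ 1 ∧ (r : L) = p * u := by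
  have hden0 : ((r.den : ℤ) : L) ≠ 0 := by exact_mod_cast r.den_nz
  have hr' : (r : L) * ((r.den : ℤ) : L) = ((r.num : ℤ) : L) := by
    have := Rat.mul_den_eq_num r
    exact_mod_cast congrArg (Rat.cast : ℚ → L) this
  -- `p ∣ num`
  have hnum : (p : ℤ) ∣ r.num := by
    by_contra hnd
    have h1 := val_intCast_eq_one v hint hp hpv hnd
    have h2 : v (r : L) * v ((r.den : ℤ) : L) = 1 := by rw [← map_mul, hr', h1]
    have h3 : v (r : L) * v ((r.den : ℤ) : L) < 1 :=
      lt_of_le_of_lt (mul_le_of_le_one_right' (hint _)) hr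
    rw [h2] at h3
    exact lt_irrefl _ h3
  obtain ⟨a', ha'⟩ := hnum
  -- `p ∤ den`
  have hden : ¬ (p : ℤ) ∣ (r.den : ℤ) := by
    intro hd
    have hd' : p ∣ r.den := by exact_mod_cast hd
    have hn' : p ∣ r.num.natAbs := by
      rw [← Int.natCast_dvd_natCast, Int.dvd_natAbs]; exact ⟨a', ha'⟩
    have := Nat.dvd_gcd hn' hd'
    rw [r.reduced] at this
    exact hp.one_lt.ne' (Nat.dvd_one.mp this)
  have hdv := val_intCast_eq_one v hint hp hpv hden
  refine ⟨(a' : L) / ((r.den : ℤ) : L), ?_, ?_⟩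
  · rw [map_div₀, hdv, div_one]; exact hint a'
  · rw [eq_comm, mul_div_assoc', div_eq_iff hden0, hr', ha']
    push_cast; ring

end ratVal

section abs

variable {K : Type*} [Field K] [CharZero K] [Algebra ℚ K] [IsGalois ℚ K]

/-- **Step (III), abstract form.**  Let `A` be a valuation subring of a Galois extension `K` of
`ℚ`, `T ⊊ S` finite sets of elements outside `A`, with `T` nonempty and stable under `Gal(K/ℚ)`.
Then `p` is not of the form `ε * ∏ ξ ∈ S, ξ⁻¹` with `ε ∈ A`. -/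
theorem false_of_prod_inv (A : ValuationSubring K) {p : ℕ} (hp : p.Prime)
    (S T : Finset K) (hTS : T ⊆ S) (hT : T.Nonempty) (hne : T ≠ S)
    (hS : ∀ ξ ∈ S, ξ ∉ A)
    (hσ : ∀ σ : K ≃ₐ[ℚ] K, ∀ ξ ∈ T, σ ξ ∈ T)
    (h : ∃ ε ∈ A, (p : K) = ε * ∏ ξ ∈ S, ξ⁻¹) : False := by
  classical
  obtain ⟨ε, hε, hpε⟩ := h
  set v := A.valuation with hv
  have hinv : ∀ ξ ∈ S, v ξ⁻¹ < 1 := by
    intro ξ hξ
    have h1 : ¬ v ξ ≤ 1 := fun h => hS ξ hξ ((A.valuation_le_one_iff ξ).mp h)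
    rw [not_le] at h1
    rw [map_inv₀]
    exact inv_lt_one_of_one_lt₀ h1
  have hprod : ∀ U : Finset K, U ⊆ S → U.Nonempty →
      v (∏ ξ ∈ U, ξ⁻¹) < 1 := by
    intro U hU hUne
    refine Finset.prod_induction_nonempty (fun ξ => ξ⁻¹) (fun z => v z < 1) ?_ hUne
      (fun ξ hξ => hinv ξ (hU hξ))
    intro a b ha hb
    rw [map_mul]
    exact mul_lt_one' ha hb
  -- the product over `T` is rational
  have hfix : ∀ σ : K ≃ₐ[ℚ] K, σ (∏ ξ ∈ T, ξ⁻¹) = ∏ ξ ∈ T, ξ⁻¹ := by
    intro σ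
    have himg : T.image σ = T := by
      refine Finset.eq_of_subset_of_card_le ?_ ?_
      · intro η hη
        obtain ⟨ξ, hξ, rfl⟩ := Finset.mem_image.mp hη
        exact hσ σ ξ hξ
      · rw [Finset.card_image_of_injective _ σ.injective]
    rw [map_prod]
    conv_rhs => rw [← himg]
    rw [Finset.prod_image (fun x _ y _ hxy => σ.injective hxy)]
    exact Finset.prod_congr rfl (fun ξ _ => map_inv₀ σ ξ)
  obtain ⟨r, hr⟩ := (InfiniteGalois.mem_range_algebraMap_iff_fixed (k := ℚ) _).mpr hfix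
  have hr' : ((r : ℚ) : K) = ∏ ξ ∈ T, ξ⁻¹ := by
    rw [← hr]; exact (eq_ratCast _ r).symm
  -- split the product
  have hST : (S \ T).Nonempty := by
    rw [Finset.nonempty_iff_ne_empty, Ne, Finset.sdiff_eq_empty_iff_subset]
    exact fun h => hne (Finset.Subset.antisymm hTS h)
  have hsplit : (∏ ξ ∈ S \ T, ξ⁻¹) * ∏ ξ ∈ T, ξ⁻¹ = ∏ ξ ∈ S, ξ⁻¹ := Finset.prod_sdiff hTS
  have hc := hprod T hTS hT
  have hd := hprod (S \ T) Finset.sdiff_subset hST
  have hεv : v ε ≤ 1 := (A.valuation_le_one_iff ε).mpr hε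
  have hint : ∀ n : ℤ, v (n : K) ≤ 1 := fun n =>
    (A.valuation_le_one_iff _).mpr (intCast_mem A n)
  have hpv : v (p : K) < 1 := by
    rw [hpε, map_mul, ← hsplit, map_mul]
    exact lt_of_le_of_lt (mul_le_of_le_one_left' hεv)
      (lt_of_le_of_lt (mul_le_of_le_one_left' hd.le) hc)
  obtain ⟨u, hu, hru⟩ := exists_eq_prime_mul v hint hp hpv r (by rw [hr']; exact hc)
  have hp0 : (p : K) ≠ 0 := by exact_mod_cast hp.ne_zero
  have hone : (1 : K) = ε * (∏ ξ ∈ S \ T, ξ⁻¹) * u := by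
    have h1 : (p : K) * 1 = p * (ε * (∏ ξ ∈ S \ T, ξ⁻¹) * u) := by
      rw [mul_one]
      conv_lhs => rw [hpε, ← hsplit, ← hr', hru]
      ring
    exact mul_left_cancel₀ hp0 h1
  have hlt : v (1 : K) < 1 := by
    rw [hone, map_mul, map_mul]
    exact lt_of_le_of_lt (mul_le_of_le_one_right' hu)
      (lt_of_le_of_lt (mul_le_of_le_one_left' hεv) hd)
  rw [map_one] at hlt
  exact lt_irrefl _ hlt

end abs

end Fermat.Agent.S13.H15
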