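import Mathlib
import Fermat.Prelude.Def_FLTPrelim_GaloisRep
import Fermat.Agent.S05.AddSub
import Fermat.Agent.S13.H15.NoAllE1

/-!
# Step (III) for curves: a Galois-stable line forces an integral torsion point

Let `W₀` be a Weierstrass curve over `ℚ`, `A` a valuation subring of `ℚ̄` and `N` a Galois-stable
proper nonzero `𝔽_p`-subspace of `E[p]`.  If the products of inverses of non-integral
`x`-coordinates of `p`-torsion points divide `p` in `A` (package T2), then some nonzero point of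
`E[p]` has `x`-coordinate in `A`, i.e. `E[p]` is not contained in the kernel of reduction.
-/

set_option autoImplicit false

open WeierstrassCurve WeierstrassCurve.Affine WeierstrassCurve.Affine.Point

namespace Fermat.Agent.S13.H15

open Fermat.Agent.S05 (xOf xOf_eq_iff xOf_neg)

/-- `Gal(ℚ̄/ℚ)` is the Galois group of a Galois extension, for the `ℚ`-algebra structure that
instance resolution finds in the presence of all of Mathlib. -/
theorem isGalois_rat_algebraicClosure : IsGalois ℚ (AlgebraicClosure ℚ) :=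
  (inferInstance : @IsGalois ℚ _ (AlgebraicClosure ℚ) _ (AlgebraicClosure.instAlgebra ℚ))

section

variable (W₀ : Affine ℚ)

theorem xOf_galois_smul (σ : AlgebraicClosure ℚ ≃ₐ[ℚ] AlgebraicClosure ℚ)
    (P : (W₀⁄(AlgebraicClosure ℚ)).Point) : xOf (σ • P) = σ (xOf P) := by
  cases P with
  | zero => exact (map_zero σ).symm
  | some x y h => rfl

/-- **Step (III).**  See the module docstring. -/
theorem exists_integral_torsion_of {p : ℕ} (hp : p.Prime)
    (A : ValuationSubring (AlgebraicClosure ℚ))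
    (N : Submodule (ZMod p) (Submodule.torsionBy ℤ (W₀⁄(AlgebraicClosure ℚ)).Point p))
    (hN : IsGaloisStable ℚ N) (hN0 : N ≠ ⊥) (hN1 : N ≠ ⊤)
    (hfin : Set.Finite {P : (W₀⁄(AlgebraicClosure ℚ)).Point | p • P = 0})
    (hT2 : ∀ S : Finset (AlgebraicClosure ℚ),
      (∀ ξ ∈ S, ξ ∉ A ∧ ∃ P : (W₀⁄(AlgebraicClosure ℚ)).Point, P ≠ 0 ∧ p • P = 0 ∧ xOf P = ξ) →
      ∃ ε ∈ A, (p : AlgebraicClosure ℚ) = ε * ∏ ξ ∈ S, ξ⁻¹) :
    ∃ R : (W₀⁄(AlgebraicClosure ℚ)).Point, R ≠ 0 ∧ p • R = 0 ∧ xOf R ∈ A := by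
  classical
  by_contra hall
  push Not at hall
  have : IsGalois ℚ (AlgebraicClosure ℚ) := isGalois_rat_algebraicClosure
  -- torsion membership
  have htor : ∀ x : Submodule.torsionBy ℤ (W₀⁄(AlgebraicClosure ℚ)).Point p,
      p • (x : (W₀⁄(AlgebraicClosure ℚ)).Point) = 0 := by
    intro x
    have h := (Submodule.mem_torsionBy_iff _ _).mp x.2
    rwa [natCast_zsmul] at h
  let inN : (W₀⁄(AlgebraicClosure ℚ)).Point → Prop := fun P => ∃ x ∈ N, (x : (W₀⁄(AlgebraicClosure ℚ)).Point) = P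
  let S : Finset (AlgebraicClosure ℚ) := (hfin.toFinset.filter (fun P => P ≠ 0)).image xOf
  let T : Finset (AlgebraicClosure ℚ) :=
    (hfin.toFinset.filter (fun P => P ≠ 0 ∧ inN P)).image xOf
  have hmemS : ∀ ξ, ξ ∈ S ↔ ∃ P : (W₀⁄(AlgebraicClosure ℚ)).Point, p • P = 0 ∧ P ≠ 0 ∧ xOf P = ξ := by
    intro ξ
    simp only [S, Finset.mem_image, Finset.mem_filter, Set.Finite.mem_toFinset, Set.mem_ofPred_eq]
    constructor
    · rintro ⟨P, ⟨h1, h2⟩, h3⟩; exact ⟨P, h1, h2, h3⟩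
    · rintro ⟨P, h1, h2, h3⟩; exact ⟨P, ⟨h1, h2⟩, h3⟩
  have hmemT : ∀ ξ, ξ ∈ T ↔ ∃ x ∈ N, x ≠ 0 ∧ xOf (x : (W₀⁄(AlgebraicClosure ℚ)).Point) = ξ := by
    intro ξ
    simp only [T, inN, Finset.mem_image, Finset.mem_filter, Set.Finite.mem_toFinset,
      Set.mem_ofPred_eq]
    constructor
    · rintro ⟨P, ⟨h1, h2, x, hx, rfl⟩, h3⟩
      exact ⟨x, hx, fun h0 => h2 (by rw [h0]; rfl), h3⟩
    · rintro ⟨x, hx, hx0, h3⟩
      exact ⟨x, ⟨htor x, fun h0 => hx0 (Subtype.ext h0), x, hx, rfl⟩, h3⟩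
  refine false_of_prod_inv A hp S T ?_ ?_ ?_ ?_ ?_ (hT2 S ?_)
  · -- `T ⊆ S`
    intro ξ hξ
    obtain ⟨x, -, hx0, rfl⟩ := (hmemT ξ).mp hξ
    exact (hmemS _).mpr ⟨x, htor x, fun h0 => hx0 (Subtype.ext h0), rfl⟩
  · -- `T` nonempty
    obtain ⟨x, hx, hx0⟩ := Submodule.exists_mem_ne_zero_of_ne_bot hN0
    exact ⟨_, (hmemT _).mpr ⟨x, hx, hx0, rfl⟩⟩
  · -- `T ≠ S`
    intro hTS
    obtain ⟨y, hy⟩ : ∃ y : Submodule.torsionBy ℤ (W₀⁄(AlgebraicClosure ℚ)).Point p, y ∉ N := by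
      by_contra hcon
      push Not at hcon
      exact hN1 (eq_top_iff.mpr fun y _ => hcon y)
    have hy0 : (y : (W₀⁄(AlgebraicClosure ℚ)).Point) ≠ 0 := by
      intro h0
      have : y = 0 := Subtype.ext h0
      exact hy (this ▸ N.zero_mem)
    have hyS : xOf (y : (W₀⁄(AlgebraicClosure ℚ)).Point) ∈ S := (hmemS _).mpr ⟨y, htor y, hy0, rfl⟩
    rw [← hTS] at hyS
    obtain ⟨x, hx, hx0, hxy⟩ := (hmemT _).mp hyS
    have hx0' : (x : (W₀⁄(AlgebraicClosure ℚ)).Point) ≠ 0 := fun h0 => hx0 (Subtype.ext h0)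
    rcases (xOf_eq_iff hx0' hy0).mp hxy with h | h
    · exact hy ((Subtype.ext h : x = y) ▸ hx)
    · have hxy' : y = -x := by
        apply Subtype.ext
        rw [Submodule.coe_neg, h, neg_neg]
      exact hy (hxy' ▸ N.neg_mem hx)
  · -- elements of `S` are not integral
    intro ξ hξ
    obtain ⟨P, h1, h2, rfl⟩ := (hmemS ξ).mp hξ
    exact hall P h2 h1
  · -- `T` is Galois-stable
    intro σ ξ hξ
    obtain ⟨x, hx, hx0, rfl⟩ := (hmemT ξ).mp hξ
    refine (hmemT _).mpr ⟨σ • x, hN σ x hx, ?_, ?_⟩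
    · intro h0
      exact hx0 ((smul_eq_zero_iff_eq σ).mp h0)
    · exact xOf_galois_smul W₀ σ x
  · intro ξ hξ
    obtain ⟨P, h1, h2, rfl⟩ := (hmemS ξ).mp hξ
    exact ⟨hall P h2 h1, P, h2, h1, rfl⟩

end

end Fermat.Agent.S13.H15
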