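import Fermat.Agent.S05.H15.SawtoothCore
import Mathlib.RingTheory.Valuation.Basic
import Mathlib.Algebra.Field.ZMod
import Mathlib.Data.ZMod.Basic
import Mathlib.Data.Fintype.Basic
import Mathlib.Order.Fin.Basic

/-!
# The sawtooth lemma for valuations, residue characteristic two allowed

A family `x : ZMod p → L` of elements of the maximal ideal of a valuation, satisfying the
`x`-coordinate addition/duplication identities of a Weierstrass curve in the normal form
`y² + a₁xy = x³ + a₂x² + a₄x` (with `a₄` in the maximal ideal, `b₂` a unit), contains an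
element with `v (x k) ^ p = v a₄ ^ 2`.
-/

set_option autoImplicit false

namespace Fermat.Agent.S13.H15

open Fermat.Agent.S05.H15 (sawtooth_core_mul)

section

variable {L : Type*} [Field L] {Γ₀ : Type*} [LinearOrderedCommGroupWithZero Γ₀]

/-- The hypotheses of the sawtooth lemma. -/
structure SawFamily2 (v : Valuation L Γ₀) (p : ℕ) (a₄ b₂ : L) (x : ZMod p → L) : Prop where
  h2 : v 2 ≤ 1
  hb₂ : v b₂ = 1
  ha₄ : v a₄ < 1
  ha₄0 : a₄ ≠ 0
  hx : ∀ k, k ≠ 0 → v (x k) < 1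
  hneg : ∀ k, x (-k) = x k
  hprod : ∀ k j, k ≠ 0 → j ≠ 0 → k ≠ j → k ≠ -j →
    x (k + j) * x (k - j) * (x k - x j) ^ 2 = (x k * x j - a₄) ^ 2
  hsum : ∀ k j, k ≠ 0 → j ≠ 0 → k ≠ j → k ≠ -j →
    (x (k + j) + x (k - j)) * (x k - x j) ^ 2 =
      x k * x j * (b₂ + 2 * (x k + x j)) + 2 * a₄ * (x k + x j)
  hdup : ∀ k, k ≠ 0 →
    x (2 * k) * x k * (4 * x k ^ 2 + b₂ * x k + 4 * a₄) = (x k ^ 2 - a₄) ^ 2

namespace SawFamily2

variable {v : Valuation L Γ₀} {p : ℕ} {a₄ b₂ : L} {x : ZMod p → L}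

theorem x_ne_zero (F : SawFamily2 v p a₄ b₂ x) {k : ZMod p} (hk : k ≠ 0) : x k ≠ 0 := by
  intro h0
  have h := F.hdup k hk
  rw [h0] at h
  have : a₄ ^ 2 = 0 := by
    have h' : (0 : L) = ((0 : L) ^ 2 - a₄) ^ 2 := by simpa using h
    rw [h']; ring
  exact F.ha₄0 ((pow_eq_zero_iff two_ne_zero).mp this)

theorem val_ne_zero (F : SawFamily2 v p a₄ b₂ x) {k : ZMod p} (hk : k ≠ 0) : v (x k) ≠ 0 :=
  (v.ne_zero_iff).mpr (F.x_ne_zero hk)

theorem val_a₄_ne_zero (F : SawFamily2 v p a₄ b₂ x) : v a₄ ≠ 0 :=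
  (v.ne_zero_iff).mpr F.ha₄0

/-- Valuations are pairwise distinct on `(ZMod p)ˣ / ±1`. -/
theorem val_ne (F : SawFamily2 v p a₄ b₂ x) {k j : ZMod p} (hk : k ≠ 0) (hj : j ≠ 0)
    (hkj : k ≠ j) (hkj' : k ≠ -j) : v (x k) ≠ v (x j) := by
  intro heq
  have hs : k + j ≠ 0 := fun h => hkj' (eq_neg_of_add_eq_zero_left h)
  have hd : k - j ≠ 0 := sub_ne_zero.mpr hkj
  have hω0 : v (x j) ≠ 0 := F.val_ne_zero hj
  have hωpos : 0 < v (x j) := zero_lt_iff.mpr hω0
  have hω1 : v (x j) < 1 := F.hx j hj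
  have hvs := F.hx _ hs
  have hvd := F.hx _ hd
  have hsub : v (x k - x j) ≤ v (x j) := v.map_sub_le (le_of_eq heq) le_rfl
  have hadd : v (x k + x j) ≤ v (x j) := v.map_add_le (le_of_eq heq) le_rfl
  have hsq : v (x k - x j) ^ 2 ≤ v (x j) ^ 2 := pow_le_pow_left₀ zero_le hsub 2
  rcases lt_or_ge (v a₄) (v (x j)) with hα | hα
  · -- use the sum identity
    have h := congrArg v (F.hsum k j hk hj hkj hkj')
    have hL : v ((x (k + j) + x (k - j)) * (x k - x j) ^ 2) < v (x j) ^ 2 := by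
      rw [map_mul, map_pow]
      calc v (x (k + j) + x (k - j)) * v (x k - x j) ^ 2
          ≤ v (x (k + j) + x (k - j)) * v (x j) ^ 2 := by gcongr
        _ < 1 * v (x j) ^ 2 :=
            mul_lt_mul_of_pos_right (v.map_add_lt hvs hvd) (pow_pos hωpos 2)
        _ = v (x j) ^ 2 := one_mul _
    have hunit : v (b₂ + 2 * (x k + x j)) = 1 := by
      rw [v.map_add_eq_of_lt_left, F.hb₂]
      rw [F.hb₂, map_mul]
      exact lt_of_le_of_lt (mul_le_of_le_one_left' F.h2) (lt_of_le_of_lt hadd hω1)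
    have hR1 : v (x k * x j * (b₂ + 2 * (x k + x j))) = v (x j) ^ 2 := by
      rw [map_mul, map_mul, hunit, heq, mul_one, sq]
    have hR2 : v (2 * a₄ * (x k + x j)) < v (x j) ^ 2 := by
      rw [map_mul, map_mul, sq, mul_assoc]
      calc v 2 * (v a₄ * v (x k + x j)) ≤ v a₄ * v (x k + x j) := mul_le_of_le_one_left' F.h2
        _ ≤ v a₄ * v (x j) := by gcongr
        _ < v (x j) * v (x j) := mul_lt_mul_of_pos_right hα hωpos
    have hR : v (x k * x j * (b₂ + 2 * (x k + x j)) + 2 * a₄ * (x k + x j)) = v (x j) ^ 2 := by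
      rw [v.map_add_eq_of_lt_left (by rw [hR1]; exact hR2), hR1]
    rw [hR] at h
    exact (ne_of_lt hL) h
  · -- use the product identity
    have h := congrArg v (F.hprod k j hk hj hkj hkj')
    have hL : v (x (k + j) * x (k - j) * (x k - x j) ^ 2) < v (x j) ^ 2 := by
      rw [map_mul, map_mul, map_pow]
      calc v (x (k + j)) * v (x (k - j)) * v (x k - x j) ^ 2
          ≤ v (x (k + j)) * v (x (k - j)) * v (x j) ^ 2 := by gcongr
        _ < 1 * v (x j) ^ 2 :=
            mul_lt_mul_of_pos_right (mul_lt_one' hvs hvd) (pow_pos hωpos 2)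
        _ = v (x j) ^ 2 := one_mul _
    have hR : v ((x k * x j - a₄) ^ 2) = v a₄ ^ 2 := by
      rw [map_pow, v.map_sub_eq_of_lt_right]
      rw [map_mul, heq]
      calc v (x j) * v (x j) < 1 * v (x j) := mul_lt_mul_of_pos_right hω1 hωpos
        _ = v (x j) := one_mul _
        _ ≤ v a₄ := hα
    rw [hR] at h
    have h3 : v (x j) ^ 2 ≤ v a₄ ^ 2 := pow_le_pow_left₀ zero_le hα 2
    rw [h] at hL
    exact absurd hL (not_lt.mpr h3)

/-- Reindexing a family by multiplication by a nonzero `k₀`. -/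
theorem reindex [Fact p.Prime] (F : SawFamily2 v p a₄ b₂ x) {k₀ : ZMod p} (hk₀ : k₀ ≠ 0) :
    SawFamily2 v p a₄ b₂ (fun k => x (k₀ * k)) where
  h2 := F.h2
  hb₂ := F.hb₂
  ha₄ := F.ha₄
  ha₄0 := F.ha₄0
  hx k hk := F.hx _ (mul_ne_zero hk₀ hk)
  hneg k := by
    show x (k₀ * -k) = x (k₀ * k)
    rw [mul_neg, F.hneg]
  hprod k j hk hj hkj hkj' := by
    show x (k₀ * (k + j)) * x (k₀ * (k - j)) * (x (k₀ * k) - x (k₀ * j)) ^ 2 =
      (x (k₀ * k) * x (k₀ * j) - a₄) ^ 2
    rw [mul_add, mul_sub]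
    exact F.hprod _ _ (mul_ne_zero hk₀ hk) (mul_ne_zero hk₀ hj)
      (fun h => hkj (mul_left_cancel₀ hk₀ h))
      (fun h => hkj' (mul_left_cancel₀ hk₀ (by rw [h, mul_neg])))
  hsum k j hk hj hkj hkj' := by
    show (x (k₀ * (k + j)) + x (k₀ * (k - j))) * (x (k₀ * k) - x (k₀ * j)) ^ 2 =
      x (k₀ * k) * x (k₀ * j) * (b₂ + 2 * (x (k₀ * k) + x (k₀ * j))) +
        2 * a₄ * (x (k₀ * k) + x (k₀ * j))
    rw [mul_add, mul_sub]
    exact F.hsum _ _ (mul_ne_zero hk₀ hk) (mul_ne_zero hk₀ hj)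
      (fun h => hkj (mul_left_cancel₀ hk₀ h))
      (fun h => hkj' (mul_left_cancel₀ hk₀ (by rw [h, mul_neg])))
  hdup k hk := by
    show x (k₀ * (2 * k)) * x (k₀ * k) * (4 * x (k₀ * k) ^ 2 + b₂ * x (k₀ * k) + 4 * a₄) =
      (x (k₀ * k) ^ 2 - a₄) ^ 2
    rw [mul_left_comm]
    exact F.hdup _ (mul_ne_zero hk₀ hk)

theorem val_four (F : SawFamily2 v p a₄ b₂ x) : v (4 : L) ≤ 1 := by
  rw [show (4 : L) = 2 * 2 by norm_num, map_mul]
  exact mul_le_one' F.h2 F.h2

theorem two_ne_zero_zmod [Fact p.Prime] (hp5 : 5 ≤ p) : (2 : ZMod p) ≠ 0 := by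
  intro h
  have h' : ((2 : ℕ) : ZMod p) = 0 := by exact_mod_cast h
  rw [ZMod.natCast_eq_zero_iff] at h'
  have := Nat.le_of_dvd (by norm_num) h'
  omega

/-- Every `x k` has valuation strictly bigger than `a₄`. -/
theorem alpha_lt [Fact p.Prime] (hp5 : 5 ≤ p) (F : SawFamily2 v p a₄ b₂ x) {k : ZMod p}
    (hk : k ≠ 0) : v a₄ < v (x k) := by
  by_contra hcon
  rw [not_lt] at hcon
  have h2k : 2 * k ≠ 0 := mul_ne_zero (two_ne_zero_zmod hp5) hk
  have h := congrArg v (F.hdup k hk)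
  have hω1 := F.hx k hk
  have hωpos : 0 < v (x k) := zero_lt_iff.mpr (F.val_ne_zero hk)
  have hsq : v (x k) ^ 2 < v (x k) := by
    rw [sq]
    calc v (x k) * v (x k) < 1 * v (x k) := mul_lt_mul_of_pos_right hω1 hωpos
      _ = v (x k) := one_mul _
  have hR : v ((x k ^ 2 - a₄) ^ 2) = v a₄ ^ 2 := by
    rw [map_pow, v.map_sub_eq_of_lt_right]
    rw [map_pow]
    exact lt_of_lt_of_le hsq hcon
  have hL : v (4 * x k ^ 2 + b₂ * x k + 4 * a₄) ≤ v a₄ := by
    refine v.map_add_le (v.map_add_le ?_ ?_) ?_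
    · rw [map_mul, map_pow]
      exact le_trans (mul_le_of_le_one_left' F.val_four) (le_trans hsq.le hcon)
    · rw [map_mul, F.hb₂, one_mul]; exact hcon
    · rw [map_mul]; exact mul_le_of_le_one_left' F.val_four
  rw [hR, map_mul, map_mul] at h
  have h4 : v a₄ * v a₄ ≤ v (x (2 * k)) * v (x k) * v a₄ := by
    rw [← sq, ← h]; gcongr
  have h5 : v a₄ ≤ v (x (2 * k)) * v (x k) :=
    le_of_mul_le_mul_right h4 (zero_lt_iff.mpr F.val_a₄_ne_zero)
  have h6 : v (x (2 * k)) * v (x k) < v (x k) := by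
    calc v (x (2 * k)) * v (x k) < 1 * v (x k) := mul_lt_mul_of_pos_right (F.hx _ h2k) hωpos
      _ = v (x k) := one_mul _
  exact absurd (lt_of_le_of_lt h5 h6) (not_lt.mpr hcon)

theorem rec_one [Fact p.Prime] (hp5 : 5 ≤ p) (F : SawFamily2 v p a₄ b₂ x) :
    v (x 2) * v (x 1) ^ 2 = v (x 1 * x 1 - a₄) ^ 2 := by
  have h1 : (1 : ZMod p) ≠ 0 := one_ne_zero
  have hα := F.alpha_lt hp5 h1
  have h := congrArg v (F.hdup 1 h1)
  rw [mul_one] at h
  have hω1 := F.hx 1 h1
  have hωpos : 0 < v (x 1) := zero_lt_iff.mpr (F.val_ne_zero h1)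
  have e1 : v (4 * x 1 ^ 2) < v (b₂ * x 1) := by
    rw [map_mul, map_mul, F.hb₂, one_mul, map_pow, sq]
    calc v 4 * (v (x 1) * v (x 1)) ≤ v (x 1) * v (x 1) := mul_le_of_le_one_left' F.val_four
      _ < 1 * v (x 1) := mul_lt_mul_of_pos_right hω1 hωpos
      _ = v (x 1) := one_mul _
  have e2 : v (4 * x 1 ^ 2 + b₂ * x 1) = v (x 1) := by
    rw [v.map_add_eq_of_lt_right e1, map_mul, F.hb₂, one_mul]
  have e3 : v (4 * x 1 ^ 2 + b₂ * x 1 + 4 * a₄) = v (x 1) := by
    rw [v.map_add_eq_of_lt_left, e2]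
    rw [e2, map_mul]; exact lt_of_le_of_lt (mul_le_of_le_one_left' F.val_four) hα
  rw [map_mul, map_mul, e3, map_pow] at h
  rw [← sq (x 1), ← h, sq, mul_assoc]

theorem rec_gen [Fact p.Prime] (F : SawFamily2 v p a₄ b₂ x)
    (hmax : ∀ k, k ≠ 0 → v (x k) ≤ v (x 1))
    {n : ZMod p} (hn0 : n ≠ 0) (hn1 : n ≠ 1) (hn1' : n ≠ -1) :
    v (x (n + 1)) * v (x (n - 1)) * v (x 1) ^ 2 = v (x n * x 1 - a₄) ^ 2 := by
  have h1 : (1 : ZMod p) ≠ 0 := one_ne_zero
  have h := congrArg v (F.hprod n 1 hn0 h1 hn1 hn1')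
  have hlt : v (x n) < v (x 1) := lt_of_le_of_ne (hmax n hn0) (F.val_ne hn0 h1 hn1 hn1')
  rw [map_mul, map_mul, map_pow, v.map_sub_eq_of_lt_right hlt, map_pow] at h
  exact h

/-- The sawtooth lemma when `x 1` has the biggest valuation. -/
theorem main_of_max [Fact p.Prime] (hp5 : 5 ≤ p) (F : SawFamily2 v p a₄ b₂ x)
    (hmax : ∀ k, k ≠ 0 → v (x k) ≤ v (x 1)) : v (x 1) ^ p = v a₄ ^ 2 := by
  have hp : p.Prime := Fact.out
  have h1 : (1 : ZMod p) ≠ 0 := one_ne_zero
  have hcast : ∀ n : ℕ, 1 ≤ n → n < p → (n : ZMod p) ≠ 0 := by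
    intro n hn1 hnp h
    rw [ZMod.natCast_eq_zero_iff] at h
    exact absurd (Nat.le_of_dvd (by omega) h) (by omega)
  let w' : ℕ → Γ₀ := fun n => if (n : ZMod p) = 0 then 1 else v (x (n : ZMod p))
  have hw' : ∀ n, w' n ≠ 0 := by
    intro n
    by_cases h : (n : ZMod p) = 0
    · simp [w', h]
    · simp only [w', h, if_false]; exact F.val_ne_zero h
  have hw'0 : w' 0 = 1 := by simp [w']
  have hw'n : ∀ n : ℕ, 1 ≤ n → n < p → w' n = v (x (n : ZMod p)) := by
    intro n hn1 hnp; simp [w', hcast n hn1 hnp]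
  have hw'1 : w' 1 = v (x 1) := by
    have := hw'n 1 le_rfl (by omega)
    simpa using this
  have key := sawtooth_core_mul hp hp5 (fun n => Units.mk0 (w' n) (hw' n))
    (Units.mk0 (v a₄) F.val_a₄_ne_zero) ?_ ?_ ?_ ?_ ?_ ?_
  · have h := congrArg Units.val key
    simpa [hw'1] using h
  · exact Units.ext hw'0
  · rw [← Units.val_lt_val]
    simp only [Units.val_mk0, Units.val_one, hw'1]
    exact F.hx 1 h1
  · rw [← Units.val_lt_val]
    simp only [Units.val_mk0, hw'1]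
    exact F.alpha_lt hp5 h1
  · intro n hn1 hnp
    apply Units.ext
    show w' (p - n) = w' n
    rw [hw'n _ (by omega) (by omega), hw'n n hn1 hnp, Nat.cast_sub hnp.le, ZMod.natCast_self,
      zero_sub, F.hneg]
  · intro k j hk hkj hjp hne h
    have h' : w' k = w' j := congrArg Units.val h
    rw [hw'n k hk (by omega), hw'n j (by omega) hjp] at h'
    refine F.val_ne (hcast k hk (by omega)) (hcast j (by omega) hjp) ?_ ?_ h'
    · intro e
      rw [ZMod.natCast_eq_natCast_iff', Nat.mod_eq_of_lt (by omega), Nat.mod_eq_of_lt hjp] at e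
      omega
    · intro e
      have e' : ((k + j : ℕ) : ZMod p) = 0 := by push_cast; rw [e]; ring
      rw [ZMod.natCast_eq_zero_iff] at e'
      obtain ⟨c, hc⟩ := e'
      have hc1 : c = 1 := by
        have hc0 : c ≠ 0 := by rintro rfl; omega
        have hc2 : c < 2 := by
          by_contra hge
          have : p * 2 ≤ p * c := Nat.mul_le_mul_left p (by omega)
          omega
        omega
      subst hc1; omega
  · intro n hn1 hn2
    have hn_lt : n < p := by omega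
    have hwn : w' n = v (x (n : ZMod p)) := hw'n n hn1 hn_lt
    have star : w' (n + 1) * w' (n - 1) * w' 1 ^ 2 = v (x (n : ZMod p) * x 1 - a₄) ^ 2 := by
      rw [hw'n (n + 1) (by omega) (by omega), hw'1]
      rcases Nat.eq_or_lt_of_le hn1 with rfl | hn2'
      · have h := F.rec_one hp5
        simp only [Nat.sub_self, hw'0, mul_one]
        have e : ((1 + 1 : ℕ) : ZMod p) = 2 := by norm_num
        rw [e, Nat.cast_one]
        exact h
      · rw [hw'n (n - 1) (by omega) (by omega)]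
        have h := F.rec_gen hmax (hcast n (by omega) hn_lt) ?_ ?_
        · rw [Nat.cast_sub hn1, Nat.cast_add, Nat.cast_one]
          exact h
        · intro e
          have e' : (n : ZMod p) = ((1 : ℕ) : ZMod p) := by rw [e, Nat.cast_one]
          rw [ZMod.natCast_eq_natCast_iff', Nat.mod_eq_of_lt hn_lt, Nat.mod_eq_of_lt (by omega)]
            at e'
          omega
        · intro e
          have e' : ((n + 1 : ℕ) : ZMod p) = 0 := by push_cast; rw [e]; ring
          rw [ZMod.natCast_eq_zero_iff] at e'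
          exact absurd (Nat.le_of_dvd (by omega) e') (by omega)
    have hmul : v (x (n : ZMod p) * x 1) = w' n * w' 1 := by rw [map_mul, hwn, hw'1]
    refine ⟨fun h => ?_, fun h => ?_, fun h => ?_⟩
    · have h' : v a₄ < v (x (n : ZMod p) * x 1) := by
        rw [hmul]; exact Units.val_lt_val.mpr h
      apply Units.ext
      simp only [Units.val_mul, Units.val_pow_eq_pow_val, Units.val_mk0]
      rw [star, v.map_sub_eq_of_lt_left h', hmul]
    · have h' : v (x (n : ZMod p) * x 1) < v a₄ := by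
        rw [hmul]; exact Units.val_lt_val.mpr h
      apply Units.ext
      simp only [Units.val_mul, Units.val_pow_eq_pow_val, Units.val_mk0]
      rw [star, v.map_sub_eq_of_lt_right h']
    · have h' : v (x (n : ZMod p) * x 1) = v a₄ := by
        rw [hmul]; exact congrArg Units.val h
      rw [← Units.val_le_val]
      simp only [Units.val_mul, Units.val_pow_eq_pow_val, Units.val_mk0]
      rw [star]
      exact pow_le_pow_left₀ zero_le (v.map_sub_le h'.le le_rfl) 2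

/-- **The sawtooth lemma.** -/
theorem main [Fact p.Prime] (hp5 : 5 ≤ p) (F : SawFamily2 v p a₄ b₂ x) :
    ∃ k : ZMod p, k ≠ 0 ∧ v (x k) ^ p = v a₄ ^ 2 := by
  classical
  have hne : (Finset.univ.filter (fun k : ZMod p => k ≠ 0)).Nonempty :=
    ⟨1, by simp⟩
  obtain ⟨k₀, hk₀, hmax⟩ := Finset.exists_max_image _ (fun k => v (x k)) hne
  have hk₀' : k₀ ≠ 0 := by simpa using hk₀
  refine ⟨k₀, hk₀', ?_⟩
  have h := (F.reindex hk₀').main_of_max hp5 ?_
  · simpa using h
  · intro k hk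
    simp only [mul_one]
    exact hmax _ (by simpa using mul_ne_zero hk₀' hk)

end SawFamily2

end

end Fermat.Agent.S13.H15
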