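import Fermat.Agent.S05.H15.SawPoint
import Fermat.Agent.S13.H15.Saw2Val

/-!
# From torsion points to the sawtooth lemma, residue characteristic two allowed

Same statement as `Fermat.Agent.S05.H15.exists_multiple_val`, but without the hypothesis that
`2` is a unit of the valuation ring: for a `p`-torsion point `P` (`p ≥ 5` prime) on a
Weierstrass curve in the normal form `a₃ = a₆ = 0` with `b₂` a unit and `a₄` in the maximal
ideal, all of whose nonzero multiples have `x`-coordinate in the maximal ideal, some multiple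
`k • P` satisfies `v (x (k • P)) ^ p = v a₄ ^ 2`.
-/

set_option autoImplicit false

namespace Fermat.Agent.S13.H15

open WeierstrassCurve Fermat.Agent.S05 Fermat.Agent.S05.H15

universe u

variable {L : Type u} [Field L] [DecidableEq L]

/-- The family of `x`-coordinates of the multiples of a `p`-torsion point is a `SawFamily2`. -/
theorem sawFamily2_of_torsion {W : Affine L} (A : ValuationSubring L) (h₃ : W.a₃ = 0)
    (h₆ : W.a₆ = 0) (hb₂ : A.valuation W.b₂ = 1)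
    (ha₄ : A.valuation W.a₄ < 1) (ha₄0 : W.a₄ ≠ 0) {p : ℕ} [Fact p.Prime] (hp5 : 5 ≤ p)
    {P : W.Point} (hP0 : P ≠ 0) (hpP : p • P = 0)
    (hm : ∀ k : ℕ, ¬ p ∣ k → A.valuation (xOf (k • P)) < 1) :
    SawFamily2 A.valuation p W.a₄ W.b₂ (fun k => xOf (zmul P k)) := by
  have hb4 : W.b₄ = 2 * W.a₄ := by simp [b₄, h₃]
  have hb6 : W.b₆ = 0 := by simp [b₆, h₃, h₆]
  have hb8 : W.b₈ = -W.a₄ ^ 2 := by simp [b₈, h₃, h₆]
  have hne : ∀ {k j : ZMod p}, k ≠ 0 → j ≠ 0 → k ≠ j → k ≠ -j →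
      xOf (zmul P k) ≠ xOf (zmul P j) := by
    intro k j hk hj hkj hkj'
    rw [Ne, xOf_eq_iff (zmul_ne_zero hP0 hpP hk) (zmul_ne_zero hP0 hpP hj), ← zmul_neg hpP]
    rintro (h | h)
    · exact hkj (zmul_injective hP0 hpP h)
    · exact hkj' (zmul_injective hP0 hpP h)
  refine
    { h2 := (A.valuation_le_one_iff 2).mpr (ofNat_mem A 2)
      hb₂ := hb₂
      ha₄ := ha₄
      ha₄0 := ha₄0
      hx := fun k hk => hm _ (not_dvd_val hk)
      hneg := fun k => ?_
      hprod := fun k j hk hj hkj hkj' => ?_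
      hsum := fun k j hk hj hkj hkj' => ?_
      hdup := fun k hk => ?_ }
  · show xOf (zmul P (-k)) = xOf (zmul P k)
    rw [zmul_neg hpP, xOf_neg]
  · obtain ⟨-, -, e₃, -⟩ := xOf_addsub (zmul_ne_zero hP0 hpP hk) (zmul_ne_zero hP0 hpP hj)
      (hne hk hj hkj hkj')
    show xOf (zmul P (k + j)) * xOf (zmul P (k - j)) * (xOf (zmul P k) - xOf (zmul P j)) ^ 2 =
      (xOf (zmul P k) * xOf (zmul P j) - W.a₄) ^ 2
    rw [zmul_add hpP, zmul_sub hpP, e₃, hb4, hb6, hb8]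
    ring
  · obtain ⟨-, -, -, e₄⟩ := xOf_addsub (zmul_ne_zero hP0 hpP hk) (zmul_ne_zero hP0 hpP hj)
      (hne hk hj hkj hkj')
    show (xOf (zmul P (k + j)) + xOf (zmul P (k - j))) * (xOf (zmul P k) - xOf (zmul P j)) ^ 2 =
      xOf (zmul P k) * xOf (zmul P j) * (W.b₂ + 2 * (xOf (zmul P k) + xOf (zmul P j))) +
        2 * W.a₄ * (xOf (zmul P k) + xOf (zmul P j))
    rw [zmul_add hpP, zmul_sub hpP, e₄, hb4, hb6]
    ring
  · have h2k : zmul P k + zmul P k ≠ 0 := by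
      rw [← zmul_add hpP, ← two_mul]
      exact zmul_ne_zero hP0 hpP (mul_ne_zero (SawFamily.two_ne_zero_zmod hp5) hk)
    have e := xOf_dbl (zmul_ne_zero hP0 hpP hk) h2k
    show xOf (zmul P (2 * k)) * xOf (zmul P k) *
        (4 * xOf (zmul P k) ^ 2 + W.b₂ * xOf (zmul P k) + 4 * W.a₄) =
      (xOf (zmul P k) ^ 2 - W.a₄) ^ 2
    rw [two_mul, zmul_add hpP]
    rw [hb4, hb6, hb8] at e
    linear_combination e

/-- Some multiple `k • P` of a `p`-torsion point `P`, all of whose nonzero multiples have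
`x`-coordinate in the maximal ideal, satisfies `v (x (k • P)) ^ p = v a₄ ^ 2`.  No hypothesis on
the residue characteristic. -/
theorem exists_multiple_val' {W : Affine L} (A : ValuationSubring L) (h₃ : W.a₃ = 0)
    (h₆ : W.a₆ = 0) (hb₂ : A.valuation W.b₂ = 1)
    (ha₄ : A.valuation W.a₄ < 1) (ha₄0 : W.a₄ ≠ 0) {p : ℕ} (hp : p.Prime) (hp5 : 5 ≤ p)
    {P : W.Point} (hP0 : P ≠ 0) (hpP : p • P = 0)
    (hm : ∀ k : ℕ, ¬ p ∣ k → A.valuation (xOf (k • P)) < 1) :
    ∃ k : ℕ, ¬ p ∣ k ∧ A.valuation (xOf (k • P)) ^ p = A.valuation W.a₄ ^ 2 := by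
  have : Fact p.Prime := ⟨hp⟩
  obtain ⟨k, hk, hkv⟩ :=
    (sawFamily2_of_torsion A h₃ h₆ hb₂ ha₄ ha₄0 hp5 hP0 hpP hm).main hp5
  exact ⟨k.val, not_dvd_val hk, hkv⟩

end Fermat.Agent.S13.H15
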